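/-
Project H (S43) / LGC / Stmt   (helper9)

LOCAL-GLOBAL COMPATIBILITY at a Taylor-Wiles prime `q` (and at the `χ`-type prime `r`), the CONSUMED
STATEMENT and its purely algebraic consequence.

Setting (per point `g` of the Hecke algebra `T_Q`, i.e. per eigenform `g` of level
`Γ₀(N) ∩ Γ_H(Q)`, coefficients in a characteristic zero domain `R`): `ρ = ρ_g : G → GL₂(R)` in the
UNTWISTED normalisation (`det ρ_g = ε · χ_g`), written as a matrix representation in a basis in which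
a fixed Frobenius lift `φ₀` at `q` is diagonal, `ρ(φ₀) = diag(A, B)` with `A ≠ B` (over `T_Q` this
basis comes from Hensel's lemma because `ᾱ ≠ β̄`); `D ⊇ I` the decomposition and inertia groups of a
place above `q`; `χ = χ_{g,q} ∘ cyc_q` the `q`-part of the nebentypus (a character of `G`);
`a = a_q(g)` the `U_q`-eigenvalue (`a ≡ α`, so `a ≠ B`); `Frob ⊆ D` the set of Frobenius lifts.

* `PointA` = what the GEOMETRY (bad reduction of `X₁(M' q)` at `q`: two Igusa components, inertia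
  acts trivially on the first and through the diamond `⟨cyc_q τ⟩` on the second, `U_q` reduces to
  the Frobenius on the first) gives at a point with `χ_{g,q} ≠ 1` (ramified principal series):
    (C1)  `(ρ τ - 1)(ρ τ' - χ τ') = 0 = (ρ τ' - χ τ')(ρ τ - 1)`  for `τ τ' ∈ I`,
    (C2)  `(ρ τ - χ τ)(ρ φ - a) = 0`                              for `τ ∈ I`, `φ ∈ Frob`,
    (det) `det ρ τ = χ τ` on `I`.
* `PointB` = what the HECKE side (B1: `M_Q / 𝔞_q ≅ M_{Q∖q}`, `U_q ↦` the root `α̃` of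
  `X² - T_q X + q⟨q⟩`) gives at a point with `χ_{g,q} = 1`: `ρ_g` is the representation of a form of
  level prime to `q`, so it is unramified at `q`, `ρ(D)` is commutative and `a` is a root of the
  characteristic polynomial of the Frobenius lifts.
* `Diag` = the common CONCLUSION, entrywise in the given basis (so it glues over a reduced ring
  `T_Q ↪ ∏_g R_g`, `Diag.of_jointly_injective`):  `ρ(σ)` is diagonal for `σ ∈ D`,
  `ρ(τ) = diag(1, χ τ)` for `τ ∈ I`, and `ρ(φ)₀₀ = a` for every Frobenius lift.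
  Consequences used by the patching: the diamond `χ τ = tr ρ(τ) - 1` lies in the trace algebra,
  `I` acts on the `B`-line through the diamonds, `U_q` is the Frobenius eigenvalue on the `I`-fixed
  line;  `Diag.twist` gives the fixed-determinant normalisation `ρ' = ψ ρ`.
-/
import Mathlib

set_option autoImplicit false

namespace Fermat.Agent.S43lib.LGC

open Matrix

variable {G : Type*} [Group G] {R : Type*} [CommRing R]

/-- The geometric input at a point with ramified nebentypus at `q`. -/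
structure PointA (D I : Subgroup G) (Frob : Set G) (ρ : G →* Matrix (Fin 2) (Fin 2) R)
    (χ : G → R) (a : R) : Prop where
  normal : ∀ σ ∈ D, ∀ τ ∈ I, σ * τ * σ⁻¹ ∈ I
  chi_conj : ∀ σ ∈ D, ∀ τ ∈ I, χ (σ * τ * σ⁻¹) = χ τ
  c1 : ∀ τ ∈ I, ∀ τ' ∈ I, (ρ τ - 1) * (ρ τ' - χ τ' • (1 : Matrix (Fin 2) (Fin 2) R)) = 0
  c1' : ∀ τ ∈ I, ∀ τ' ∈ I, (ρ τ' - χ τ' • (1 : Matrix (Fin 2) (Fin 2) R)) * (ρ τ - 1) = 0
  det : ∀ τ ∈ I, (ρ τ).det = χ τ
  c2 : ∀ τ ∈ I, ∀ φ ∈ Frob,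
    (ρ τ - χ τ • (1 : Matrix (Fin 2) (Fin 2) R)) * (ρ φ - a • (1 : Matrix (Fin 2) (Fin 2) R)) = 0
  ram : ∃ τ ∈ I, χ τ ≠ 1

/-- The Hecke-side input at a point with trivial nebentypus at `q` (`q`-old point). -/
structure PointB (D I : Subgroup G) (Frob : Set G) (ρ : G →* Matrix (Fin 2) (Fin 2) R)
    (χ : G → R) (a : R) : Prop where
  unram : ∀ τ ∈ I, ρ τ = 1
  chi_one : ∀ τ ∈ I, χ τ = 1
  comm : ∀ σ ∈ D, ∀ φ ∈ Frob, ρ σ * ρ φ = ρ φ * ρ σ
  c2 : ∀ φ ∈ Frob, a ^ 2 - (ρ φ).trace * a + (ρ φ).det = 0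

/-- The conclusion: in the eigenbasis of `ρ(φ₀)` the decomposition group is diagonal, inertia is
`diag(1, χ)` and every Frobenius lift has `a` in the upper left corner. -/
structure Diag (D I : Subgroup G) (Frob : Set G) (ρ : G →* Matrix (Fin 2) (Fin 2) R)
    (χ : G → R) (a : R) : Prop where
  diag : ∀ σ ∈ D, ρ σ 0 1 = 0 ∧ ρ σ 1 0 = 0
  inertia : ∀ τ ∈ I, ρ τ 0 0 = 1 ∧ ρ τ 1 1 = χ τ
  frob : ∀ φ ∈ Frob, ρ φ 0 0 = a

section TwoByTwo

/-- a matrix commuting with `diag(p, s)`, `p ≠ s`, over a domain is diagonal -/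
theorem offDiag_zero_of_commute [IsDomain R] {p s : R} (hps : p ≠ s) {X Y : Matrix (Fin 2) (Fin 2) R}
    (hY : Y = Matrix.diagonal ![p, s]) (h : X * Y = Y * X) : X 0 1 = 0 ∧ X 1 0 = 0 := by
  subst hY
  have h01 := congrFun (congrFun h 0) 1
  have h10 := congrFun (congrFun h 1) 0
  simp only [Matrix.mul_apply, Fin.sum_univ_two, Matrix.diagonal_apply_eq,
    Matrix.diagonal_apply_ne _ (show (0 : Fin 2) ≠ 1 by decide),
    Matrix.diagonal_apply_ne _ (show (1 : Fin 2) ≠ 0 by decide), Matrix.cons_val_zero,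
    Matrix.cons_val_one, mul_zero, zero_mul, add_zero, zero_add] at h01 h10
  have hsp : s - p ≠ 0 := sub_ne_zero.2 (Ne.symm hps)
  constructor
  · have : (s - p) * X 0 1 = 0 := by linear_combination h01
    exact (mul_eq_zero.1 this).resolve_left hsp
  · have : (s - p) * X 1 0 = 0 := by linear_combination -h10
    exact (mul_eq_zero.1 this).resolve_left hsp

theorem eq_diagonal_of_offDiag_zero {X : Matrix (Fin 2) (Fin 2) R} (h : X 0 1 = 0 ∧ X 1 0 = 0) :
    X = Matrix.diagonal ![X 0 0, X 1 1] := by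
  ext i j
  fin_cases i <;> fin_cases j <;> simp [h.1, h.2]

end TwoByTwo

section Main

variable {D I : Subgroup G} {Frob : Set G} {ρ : G →* Matrix (Fin 2) (Fin 2) R} {χ : G → R} {a : R}

theorem rho_mul_inv (σ : G) : ρ σ * ρ σ⁻¹ = 1 := by
  rw [← map_mul, mul_inv_cancel, map_one]

theorem rho_inv_mul (σ : G) : ρ σ⁻¹ * ρ σ = 1 := by
  rw [← map_mul, inv_mul_cancel, map_one]

/-- **Case A**: the geometric input gives the diagonal form. -/
theorem PointA.diag [IsDomain R] (h : PointA D I Frob ρ χ a) (hID : I ≤ D) {φ₀ : G}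
    (hφ₀D : φ₀ ∈ D) (hφ₀ : φ₀ ∈ Frob) {A B : R} (hAB : A ≠ B) (hρφ₀ : ρ φ₀ = Matrix.diagonal ![A, B])
    (haB : a ≠ B) : Diag D I Frob ρ χ a := by
  obtain ⟨τ₀, hτ₀, hx⟩ := h.ram
  set x : R := χ τ₀ with hxdef
  have hx1 : x - 1 ≠ 0 := sub_ne_zero.2 hx
  -- the two scaled idempotents
  set E₁ : Matrix (Fin 2) (Fin 2) R := x • (1 : Matrix (Fin 2) (Fin 2) R) - ρ τ₀ with hE₁
  set E₂ : Matrix (Fin 2) (Fin 2) R := ρ τ₀ - 1 with hE₂
  have hsum : E₁ + E₂ = (x - 1) • (1 : Matrix (Fin 2) (Fin 2) R) := by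
    rw [hE₁, hE₂, sub_smul, one_smul]; abel
  -- `E₂ ρ(σ) E₁ = 0` and `E₁ ρ(σ) E₂ = 0` for `σ ∈ D`
  have key1 : ∀ σ ∈ D, E₂ * ρ σ * E₁ = 0 := by
    intro σ hσ
    have hconj : σ⁻¹ * τ₀ * σ⁻¹⁻¹ ∈ I := h.normal σ⁻¹ (D.inv_mem hσ) τ₀ hτ₀
    have hχ : χ (σ⁻¹ * τ₀ * σ⁻¹⁻¹) = x := h.chi_conj σ⁻¹ (D.inv_mem hσ) τ₀ hτ₀
    have h1 := h.c1 _ hconj τ₀ hτ₀
    rw [inv_inv, map_mul, map_mul] at h1
    -- `(ρσ⁻¹ ρτ₀ ρσ - 1)(ρτ₀ - x) = 0`; multiply by `ρσ` on the left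
    have h2 : ρ σ * ((ρ σ⁻¹ * ρ τ₀ * ρ σ - 1) * (ρ τ₀ - x • (1 : Matrix (Fin 2) (Fin 2) R))) = 0 := by
      rw [h1, mul_zero]
    have h3 : ρ σ * (ρ σ⁻¹ * ρ τ₀ * ρ σ - 1) = (ρ τ₀ - 1) * ρ σ := by
      rw [mul_sub, mul_one, sub_mul, one_mul, ← mul_assoc, ← mul_assoc, rho_mul_inv, one_mul]
    rw [← mul_assoc, h3] at h2
    have h4 : E₂ * ρ σ * E₁ = -((ρ τ₀ - 1) * ρ σ * (ρ τ₀ - x • (1 : Matrix (Fin 2) (Fin 2) R))) := by
      rw [hE₁, hE₂, ← mul_neg, neg_sub]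
    rw [h4, h2, neg_zero]
  have key2 : ∀ σ ∈ D, E₁ * ρ σ * E₂ = 0 := by
    intro σ hσ
    have hconj : σ * τ₀ * σ⁻¹ ∈ I := h.normal σ hσ τ₀ hτ₀
    have h1 := h.c1' _ hconj τ₀ hτ₀
    rw [map_mul, map_mul] at h1
    have h2 : (ρ τ₀ - x • (1 : Matrix (Fin 2) (Fin 2) R)) * (ρ σ * ρ τ₀ * ρ σ⁻¹ - 1) * ρ σ = 0 := by
      rw [h1, zero_mul]
    have h3 : (ρ σ * ρ τ₀ * ρ σ⁻¹ - 1) * ρ σ = ρ σ * (ρ τ₀ - 1) := by
      rw [sub_mul, one_mul, mul_sub, mul_one, mul_assoc, mul_assoc, rho_inv_mul, mul_one]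
    rw [mul_assoc, h3, ← mul_assoc] at h2
    have h4 : E₁ * ρ σ * E₂ = -((ρ τ₀ - x • (1 : Matrix (Fin 2) (Fin 2) R)) * ρ σ * (ρ τ₀ - 1)) := by
      rw [hE₁, hE₂, ← neg_mul, ← neg_mul, neg_sub]
    rw [h4, h2, neg_zero]
  -- hence `ρ(σ)` commutes with `E₁`, i.e. with `ρ(τ₀)`
  have hcomm : ∀ σ ∈ D, ρ σ * ρ τ₀ = ρ τ₀ * ρ σ := by
    intro σ hσ
    have e1 : (x - 1) • (E₁ * ρ σ) = E₁ * ρ σ * E₁ := by
      have : E₁ * ρ σ * (E₁ + E₂) = (x - 1) • (E₁ * ρ σ) := by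
        rw [hsum, Matrix.mul_smul, mul_one]
      rw [← this, mul_add, key2 σ hσ, add_zero]
    have e2 : (x - 1) • (ρ σ * E₁) = E₁ * ρ σ * E₁ := by
      have : (E₁ + E₂) * (ρ σ * E₁) = (x - 1) • (ρ σ * E₁) := by
        rw [hsum, Matrix.smul_mul, one_mul]
      rw [← this, add_mul, ← mul_assoc, ← mul_assoc, key1 σ hσ, add_zero]
    have e3 : (x - 1) • (E₁ * ρ σ - ρ σ * E₁) = 0 := by
      rw [smul_sub, e1, e2, sub_self]
    have e4 : E₁ * ρ σ - ρ σ * E₁ = 0 := by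
      ext i j
      have := congrFun (congrFun e3 i) j
      simp only [Matrix.smul_apply, smul_eq_mul, Matrix.zero_apply] at this ⊢
      exact (mul_eq_zero.1 this).resolve_left hx1
    have e5 : E₁ * ρ σ - ρ σ * E₁ = ρ σ * ρ τ₀ - ρ τ₀ * ρ σ := by
      rw [hE₁, sub_mul, mul_sub, Matrix.smul_mul, Matrix.mul_smul, one_mul, mul_one]; abel
    rw [e5] at e4
    exact sub_eq_zero.1 e4
  -- `ρ(τ₀)` is diagonal with entries `p, s`
  have hτ₀off : ρ τ₀ 0 1 = 0 ∧ ρ τ₀ 1 0 = 0 :=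
    offDiag_zero_of_commute hAB hρφ₀ (hcomm φ₀ hφ₀D).symm
  set p : R := ρ τ₀ 0 0 with hp
  set s : R := ρ τ₀ 1 1 with hs
  have hτ₀diag : ρ τ₀ = Matrix.diagonal ![p, s] := eq_diagonal_of_offDiag_zero hτ₀off
  -- the equations for `p, s`
  have hdet : p * s = x := by
    have := h.det τ₀ hτ₀
    rw [hτ₀diag, Matrix.det_diagonal, Fin.prod_univ_two] at this
    simpa using this
  have hx0 : x ≠ 0 := by
    intro hx0
    have h1 : (ρ τ₀).det * (ρ τ₀⁻¹).det = 1 := by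
      rw [← Matrix.det_mul, rho_mul_inv, Matrix.det_one]
    rw [h.det τ₀ hτ₀, ← hxdef, hx0, zero_mul] at h1
    exact zero_ne_one h1
  have hpp : (p - 1) * (p - x) = 0 := by
    have := congrFun (congrFun (h.c1 τ₀ hτ₀ τ₀ hτ₀) 0) 0
    rw [hτ₀diag] at this
    simpa [Matrix.mul_apply, Fin.sum_univ_two, Matrix.sub_apply, Matrix.smul_apply,
      Matrix.one_apply] using this
  have hss : (s - 1) * (s - x) = 0 := by
    have := congrFun (congrFun (h.c1 τ₀ hτ₀ τ₀ hτ₀) 1) 1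
    rw [hτ₀diag] at this
    simpa [Matrix.mul_apply, Fin.sum_univ_two, Matrix.sub_apply, Matrix.smul_apply,
      Matrix.one_apply] using this
  -- the (0,0) and (1,1) entries of (C2) at `τ₀`
  have hc2 : ∀ φ ∈ Frob, (p - x) * (ρ φ 0 0 - a) = 0 ∧ (s - x) * (ρ φ 1 1 - a) = 0 := by
    intro φ hφ
    have h00 := congrFun (congrFun (h.c2 τ₀ hτ₀ φ hφ) 0) 0
    have h11 := congrFun (congrFun (h.c2 τ₀ hτ₀ φ hφ) 1) 1
    rw [hτ₀diag] at h00 h11
    constructor
    · simpa [Matrix.mul_apply, Fin.sum_univ_two, Matrix.sub_apply, Matrix.smul_apply,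
        Matrix.one_apply] using h00
    · simpa [Matrix.mul_apply, Fin.sum_univ_two, Matrix.sub_apply, Matrix.smul_apply,
        Matrix.one_apply] using h11
  -- `p = 1`, `s = x`
  have hp1 : p = 1 ∧ s = x := by
    rcases mul_eq_zero.1 hpp with hp1 | hpx
    · have hp1' : p = 1 := sub_eq_zero.1 hp1
      refine ⟨hp1', ?_⟩
      rw [hp1', one_mul] at hdet
      exact hdet
    · exfalso
      have hpx' : p = x := sub_eq_zero.1 hpx
      have hs1 : s = 1 := by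
        rw [hpx'] at hdet
        have : x * (s - 1) = 0 := by linear_combination hdet
        exact sub_eq_zero.1 ((mul_eq_zero.1 this).resolve_left hx0)
      have h2 := (hc2 φ₀ hφ₀).2
      rw [hs1, hρφ₀] at h2
      simp only [Matrix.diagonal_apply_eq, Matrix.cons_val_one, Matrix.cons_val_zero] at h2
      rcases mul_eq_zero.1 h2 with h3 | h3
      · exact hx (sub_eq_zero.1 h3).symm
      · exact haB (sub_eq_zero.1 h3).symm
  obtain ⟨hp1', hsx⟩ := hp1
  have hps : p ≠ s := by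
    rw [hp1', hsx]; exact Ne.symm hx
  have hdiagD : ∀ σ ∈ D, ρ σ 0 1 = 0 ∧ ρ σ 1 0 = 0 := fun σ hσ =>
    offDiag_zero_of_commute hps hτ₀diag (hcomm σ hσ)
  refine ⟨hdiagD, ?_, ?_⟩
  · intro τ hτ
    have hoff := hdiagD τ (hID hτ)
    have h00 := congrFun (congrFun (h.c1 τ hτ τ₀ hτ₀) 0) 0
    rw [hτ₀diag] at h00
    simp only [Matrix.mul_apply, Fin.sum_univ_two, Matrix.sub_apply, Matrix.smul_apply,
      Matrix.one_apply, Matrix.diagonal_apply_eq, Matrix.cons_val_zero, hoff.1] at h00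
    have h00' : (ρ τ 0 0 - 1) * (p - x) = 0 := by simpa using h00
    rw [hp1'] at h00'
    have ha1 : ρ τ 0 0 = 1 := by
      rcases mul_eq_zero.1 h00' with h3 | h3
      · exact sub_eq_zero.1 h3
      · exact absurd (sub_eq_zero.1 h3).symm hx
    refine ⟨ha1, ?_⟩
    have hd := h.det τ hτ
    rw [eq_diagonal_of_offDiag_zero hoff, Matrix.det_diagonal, Fin.prod_univ_two] at hd
    simpa [ha1] using hd
  · intro φ hφ
    have h1 := (hc2 φ hφ).1
    rw [hp1'] at h1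
    rcases mul_eq_zero.1 h1 with h3 | h3
    · exact absurd (sub_eq_zero.1 h3).symm hx
    · exact sub_eq_zero.1 h3

/-- **Case B**: the Hecke-side input at a `q`-old point gives the same diagonal form. -/
theorem PointB.diag [IsDomain R] (h : PointB D I Frob ρ χ a) {φ₀ : G}
    (hφ₀ : φ₀ ∈ Frob) (hFI : ∀ φ ∈ Frob, ∃ τ ∈ I, φ = φ₀ * τ) {A B : R} (hAB : A ≠ B)
    (hρφ₀ : ρ φ₀ = Matrix.diagonal ![A, B]) (haB : a ≠ B) : Diag D I Frob ρ χ a := by
  have hρφ : ∀ φ ∈ Frob, ρ φ = Matrix.diagonal ![A, B] := by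
    intro φ hφ
    obtain ⟨τ, hτ, rfl⟩ := hFI φ hφ
    rw [map_mul, h.unram τ hτ, mul_one, hρφ₀]
  have haA : a = A := by
    have := h.c2 φ₀ hφ₀
    rw [hρφ₀, Matrix.trace_diagonal, Matrix.det_diagonal, Fin.sum_univ_two, Fin.prod_univ_two] at this
    simp only [Matrix.cons_val_zero, Matrix.cons_val_one] at this
    have h2 : (a - A) * (a - B) = 0 := by linear_combination this
    rcases mul_eq_zero.1 h2 with h3 | h3
    · exact sub_eq_zero.1 h3
    · exact absurd (sub_eq_zero.1 h3) haB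
  refine ⟨fun σ hσ => offDiag_zero_of_commute hAB hρφ₀ (h.comm σ hσ φ₀ hφ₀), ?_, ?_⟩
  · intro τ hτ
    rw [h.unram τ hτ, h.chi_one τ hτ]
    simp
  · intro φ hφ
    rw [hρφ φ hφ, haA]
    simp

end Main

/-! ### Gluing over a reduced ring, consequences, twisting -/

section Glue

variable {D I : Subgroup G} {Frob : Set G} {ρ : G →* Matrix (Fin 2) (Fin 2) R} {χ : G → R} {a : R}

/-- push a matrix representation forward along a ring homomorphism -/
def mapRep {R' : Type*} [CommRing R'] (f : R →+* R') (ρ : G →* Matrix (Fin 2) (Fin 2) R) :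
    G →* Matrix (Fin 2) (Fin 2) R' :=
  ((f.mapMatrix : Matrix (Fin 2) (Fin 2) R →+* Matrix (Fin 2) (Fin 2) R') :
    Matrix (Fin 2) (Fin 2) R →* Matrix (Fin 2) (Fin 2) R').comp ρ

@[simp] theorem mapRep_apply {R' : Type*} [CommRing R'] (f : R →+* R')
    (ρ : G →* Matrix (Fin 2) (Fin 2) R) (σ : G) (i j : Fin 2) :
    mapRep f ρ σ i j = f (ρ σ i j) := rfl

/-- `Diag` is a family of entrywise identities, so it can be checked at the points of a reduced
ring: if the homomorphisms `f i : R → R' i` are jointly injective and `Diag` holds for every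
`f i ∘ ρ`, it holds for `ρ`. -/
theorem Diag.of_jointly_injective {ι : Type*} {R' : ι → Type*} [∀ i, CommRing (R' i)]
    (f : ∀ i, R →+* R' i) (hf : ∀ r : R, (∀ i, f i r = 0) → r = 0)
    (h : ∀ i, Diag D I Frob (mapRep (f i) ρ) (fun σ => f i (χ σ)) (f i a)) :
    Diag D I Frob ρ χ a := by
  have key : ∀ r s : R, (∀ i, f i r = f i s) → r = s := fun r s hrs =>
    sub_eq_zero.1 (hf _ fun i => by rw [map_sub, hrs i, sub_self])
  refine ⟨fun σ hσ => ⟨key _ _ fun i => ?_, key _ _ fun i => ?_⟩,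
    fun τ hτ => ⟨key _ _ fun i => ?_, key _ _ fun i => ?_⟩, fun φ hφ => key _ _ fun i => ?_⟩
  · rw [map_zero]; exact ((h i).diag σ hσ).1
  · rw [map_zero]; exact ((h i).diag σ hσ).2
  · rw [map_one]; exact ((h i).inertia τ hτ).1
  · exact ((h i).inertia τ hτ).2
  · exact (h i).frob φ hφ

/-- the diamond operator is in the trace algebra: `χ τ = tr ρ(τ) - 1` on inertia -/
theorem Diag.chi_eq_trace (h : Diag D I Frob ρ χ a) {τ : G} (hτ : τ ∈ I) :
    χ τ = (ρ τ).trace - 1 := by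
  rw [Matrix.trace_fin_two, (h.inertia τ hτ).1, (h.inertia τ hτ).2]; ring

/-- on the decomposition group `ρ` is the sum of the two characters `σ ↦ ρ σ 0 0`, `σ ↦ ρ σ 1 1` -/
theorem Diag.eq_diagonal (h : Diag D I Frob ρ χ a) {σ : G} (hσ : σ ∈ D) :
    ρ σ = Matrix.diagonal ![ρ σ 0 0, ρ σ 1 1] :=
  eq_diagonal_of_offDiag_zero (h.diag σ hσ)

theorem Diag.mul_apply_zero (h : Diag D I Frob ρ χ a) {σ σ' : G} (hσ : σ ∈ D) :
    ρ (σ * σ') 0 0 = ρ σ 0 0 * ρ σ' 0 0 := by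
  rw [map_mul, Matrix.mul_apply, Fin.sum_univ_two, (h.diag σ hσ).1, zero_mul, add_zero]

theorem Diag.mul_apply_one (h : Diag D I Frob ρ χ a) {σ σ' : G} (hσ : σ ∈ D) :
    ρ (σ * σ') 1 1 = ρ σ 1 1 * ρ σ' 1 1 := by
  rw [map_mul, Matrix.mul_apply, Fin.sum_univ_two, (h.diag σ hσ).2, zero_mul, zero_add]

/-- every Frobenius lift satisfies `ρ(φ) = diag(a, det ρ(φ) / a)`: `a` is a root of its
characteristic polynomial -/
theorem Diag.charpoly_frob (h : Diag D I Frob ρ χ a) (hFD : ∀ φ ∈ Frob, φ ∈ D) {φ : G}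
    (hφ : φ ∈ Frob) : a ^ 2 - (ρ φ).trace * a + (ρ φ).det = 0 := by
  rw [Matrix.trace_fin_two, Matrix.det_fin_two, (h.diag φ (hFD φ hφ)).1, h.frob φ hφ]; ring

/-- **Twisting** (fixed determinant normalisation): for a character `ψ` the representation
`ρ' = ψ · ρ` is diagonal on `D`, `diag(ψ, ψ χ)` on inertia, with `ψ(φ) a` in the corner of every
Frobenius lift.  With `ψ² = χ⁻¹` on `I` this is `diag(ψ, ψ⁻¹)`. -/
theorem Diag.twist (h : Diag D I Frob ρ χ a) (ψ : G →* R) (ρ' : G →* Matrix (Fin 2) (Fin 2) R)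
    (hρ' : ∀ σ, ρ' σ = ψ σ • ρ σ) :
    (∀ σ ∈ D, ρ' σ 0 1 = 0 ∧ ρ' σ 1 0 = 0) ∧
    (∀ τ ∈ I, ρ' τ 0 0 = ψ τ ∧ ρ' τ 1 1 = ψ τ * χ τ) ∧
    (∀ φ ∈ Frob, ρ' φ 0 0 = ψ φ * a) := by
  refine ⟨fun σ hσ => ?_, fun τ hτ => ?_, fun φ hφ => ?_⟩
  · rw [hρ', Matrix.smul_apply, Matrix.smul_apply, (h.diag σ hσ).1, (h.diag σ hσ).2]
    simp
  · rw [hρ', Matrix.smul_apply, Matrix.smul_apply, (h.inertia τ hτ).1, (h.inertia τ hτ).2]
    simp
  · rw [hρ', Matrix.smul_apply, h.frob φ hφ]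
    simp

end Glue

/-! ### The same for `Module.End`-valued representations with a chosen basis -/

section EndVersion

variable {V : Type*} [AddCommGroup V] [Module R V]

/-- the matrix representation of `ρ : G → End_R V` in the basis `b` -/
noncomputable def matRep (b : Module.Basis (Fin 2) R V) (ρ : G →* Module.End R V) :
    G →* Matrix (Fin 2) (Fin 2) R :=
  ((LinearMap.toMatrixAlgEquiv b : Module.End R V ≃ₐ[R] Matrix (Fin 2) (Fin 2) R) :
    Module.End R V →* Matrix (Fin 2) (Fin 2) R).comp ρ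

theorem matRep_apply (b : Module.Basis (Fin 2) R V) (ρ : G →* Module.End R V) (σ : G)
    (i j : Fin 2) : matRep b ρ σ i j = b.repr (ρ σ (b j)) i := by
  show LinearMap.toMatrixAlgEquiv b (ρ σ) i j = _
  rw [LinearMap.toMatrixAlgEquiv_apply]

variable {D I : Subgroup G} {Frob : Set G} {χ : G → R} {a : R}

/-- `Diag` in the language of lines: `L₁ = R b₀` and `L₂ = R b₁` are stable under the decomposition
group, inertia is trivial on `L₁` and acts through `χ` on `L₂`, Frobenius lifts act on `L₁`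
through `a`. -/
theorem Diag.lines {b : Module.Basis (Fin 2) R V} {ρ : G →* Module.End R V}
    (h : Diag D I Frob (matRep b ρ) χ a) (hID : I ≤ D) :
    (∀ σ ∈ D, ρ σ (b 0) = matRep b ρ σ 0 0 • b 0 ∧ ρ σ (b 1) = matRep b ρ σ 1 1 • b 1) ∧
    (∀ τ ∈ I, ρ τ (b 0) = b 0 ∧ ρ τ (b 1) = χ τ • b 1) ∧
    (∀ φ ∈ Frob, (φ ∈ D) → ρ φ (b 0) = a • b 0) := by
  have hD : ∀ σ ∈ D, ρ σ (b 0) = matRep b ρ σ 0 0 • b 0 ∧ ρ σ (b 1) = matRep b ρ σ 1 1 • b 1 := by
    intro σ hσ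
    have h01 := (h.diag σ hσ).1
    have h10 := (h.diag σ hσ).2
    rw [matRep_apply] at h01 h10
    constructor
    · conv_lhs => rw [← b.sum_repr (ρ σ (b 0))]
      rw [Fin.sum_univ_two, h10, zero_smul, add_zero, matRep_apply]
    · conv_lhs => rw [← b.sum_repr (ρ σ (b 1))]
      rw [Fin.sum_univ_two, h01, zero_smul, zero_add, matRep_apply]
  refine ⟨hD, fun τ hτ => ?_, fun φ hφ hφD => ?_⟩
  · rw [(hD τ (hID hτ)).1, (hD τ (hID hτ)).2, (h.inertia τ hτ).1, (h.inertia τ hτ).2, one_smul]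
    exact ⟨rfl, rfl⟩
  · rw [(hD φ hφD).1, h.frob φ hφ]

end EndVersion

/-! ### The `(C2)`-free TRACE statement (the form consumed by the patching, #h7-H5/H6)

Only the diagonal case `τ = τ'` of `(C1)` and the determinant are used; no Frobenius, no `U_q`.
The conclusion `tr ρ(τ) = 1 + χ(τ)` for `τ ∈ I` holds over ANY commutative ring (no domain
hypothesis: `ρ τ` is invertible), it is a single identity in `R`, so it glues over jointly
injective families of points, and it is stable under twisting. -/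

section TraceOnly

variable {I : Subgroup G} {ρ : G →* Matrix (Fin 2) (Fin 2) R} {χ : G → R}

/-- The geometric input without `(C2)`: the quadratic relation on inertia and the determinant. -/
structure PointA' (I : Subgroup G) (ρ : G →* Matrix (Fin 2) (Fin 2) R) (χ : G → R) : Prop where
  c1 : ∀ τ ∈ I, (ρ τ - 1) * (ρ τ - χ τ • (1 : Matrix (Fin 2) (Fin 2) R)) = 0
  det : ∀ τ ∈ I, (ρ τ).det = χ τ

/-- The trace statement: `tr ρ(τ) = 1 + χ(τ)` on inertia. -/
def TraceStmt (I : Subgroup G) (ρ : G →* Matrix (Fin 2) (Fin 2) R) (χ : G → R) : Prop :=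
  ∀ τ ∈ I, (ρ τ).trace = 1 + χ τ

theorem PointA.toPointA' {D : Subgroup G} {Frob : Set G} {a : R} (h : PointA D I Frob ρ χ a) :
    PointA' I ρ χ :=
  ⟨fun τ hτ => h.c1 τ hτ τ hτ, h.det⟩

/-- **(C2)-free consequence**: `(ρ τ - 1)(ρ τ - χ τ) = 0` and `det ρ τ = χ τ` give
`tr ρ τ = 1 + χ τ`, over any commutative ring. -/
theorem PointA'.trace_eq (h : PointA' I ρ χ) : TraceStmt I ρ χ := by
  intro τ hτ
  have hc := h.c1 τ hτ
  have hd := h.det τ hτ
  have hinv := rho_mul_inv (ρ := ρ) τ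
  rw [Matrix.det_fin_two] at hd
  have h00 := congrFun (congrFun hc 0) 0
  have h01 := congrFun (congrFun hc 0) 1
  have h10 := congrFun (congrFun hc 1) 0
  have h11 := congrFun (congrFun hc 1) 1
  have i00 := congrFun (congrFun hinv 0) 0
  simp only [Matrix.mul_apply, Fin.sum_univ_two, Matrix.sub_apply, Matrix.smul_apply,
    Matrix.one_apply_eq, Matrix.one_apply_ne (show (0 : Fin 2) ≠ 1 by decide),
    Matrix.one_apply_ne (show (1 : Fin 2) ≠ 0 by decide), Matrix.zero_apply, smul_eq_mul,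
    mul_one, mul_zero, sub_zero] at h00 h01 h10 h11 i00
  rw [Matrix.trace_fin_two]
  set a := ρ τ 0 0
  set b := ρ τ 0 1
  set c := ρ τ 1 0
  set d := ρ τ 1 1
  set x := χ τ
  set t := a + d - (1 + x) with ht
  have ta : t * a = 0 := by rw [ht]; linear_combination h00 + hd
  have tb : t * b = 0 := by rw [ht]; linear_combination h01
  have ht0 : t = 0 := by
    calc t = t * (a * ρ τ⁻¹ 0 0 + b * ρ τ⁻¹ 1 0) := by rw [i00, mul_one]
      _ = (t * a) * ρ τ⁻¹ 0 0 + (t * b) * ρ τ⁻¹ 1 0 := by ring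
      _ = 0 := by rw [ta, tb, zero_mul, zero_mul, add_zero]
  exact sub_eq_zero.1 ht0

/-- the `q`-old points: `ρ` unramified and `χ` trivial on `I` give the trace statement -/
theorem TraceStmt.of_unram (hu : ∀ τ ∈ I, ρ τ = 1) (hχ : ∀ τ ∈ I, χ τ = 1) : TraceStmt I ρ χ := by
  intro τ hτ
  rw [hu τ hτ, hχ τ hτ, Matrix.trace_fin_two]
  simp only [Matrix.one_apply_eq]

theorem PointB.trace_eq {D : Subgroup G} {Frob : Set G} {a : R} (h : PointB D I Frob ρ χ a) :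
    TraceStmt I ρ χ :=
  TraceStmt.of_unram h.unram h.chi_one

theorem Diag.trace_eq {D : Subgroup G} {Frob : Set G} {a : R} (h : Diag D I Frob ρ χ a) :
    TraceStmt I ρ χ := fun τ hτ => by
  rw [h.chi_eq_trace hτ]; ring

theorem mapRep_trace {R' : Type*} [CommRing R'] (f : R →+* R') (σ : G) :
    (mapRep f ρ σ).trace = f (ρ σ).trace := by
  rw [Matrix.trace_fin_two, Matrix.trace_fin_two, map_add]
  rfl

/-- the trace statement glues over a jointly injective family of points -/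
theorem TraceStmt.of_jointly_injective {ι : Type*} {R' : ι → Type*} [∀ i, CommRing (R' i)]
    (f : ∀ i, R →+* R' i) (hf : ∀ r : R, (∀ i, f i r = 0) → r = 0)
    (h : ∀ i, TraceStmt I (mapRep (f i) ρ) (fun σ => f i (χ σ))) : TraceStmt I ρ χ := by
  intro τ hτ
  refine sub_eq_zero.1 (hf _ fun i => ?_)
  have := h i τ hτ
  rw [mapRep_trace] at this
  rw [map_sub, map_add, map_one, this, sub_self]

/-- the trace statement is stable under base change -/
theorem TraceStmt.map {R' : Type*} [CommRing R'] (f : R →+* R') (h : TraceStmt I ρ χ) :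
    TraceStmt I (mapRep f ρ) (fun σ => f (χ σ)) := by
  intro τ hτ
  rw [mapRep_trace, h τ hτ, map_add, map_one]

/-- **Twisting**: for `ρ' = ψ ρ` the trace statement reads `tr ρ'(τ) = ψ τ + ψ τ χ τ`; when
`ψ² χ = 1` on `I` (fixed determinant normalisation) the two summands are inverse to each other. -/
theorem TraceStmt.twist (h : TraceStmt I ρ χ) (ψ : G → R) (ρ' : G →* Matrix (Fin 2) (Fin 2) R)
    (hρ' : ∀ σ, ρ' σ = ψ σ • ρ σ) {τ : G} (hτ : τ ∈ I) :
    (ρ' τ).trace = ψ τ + ψ τ * χ τ := by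
  rw [hρ', Matrix.trace_smul, h τ hτ, smul_eq_mul]; ring

omit [Group G] in
theorem TraceStmt.twist_mul (ψ : G → R) {τ : G} (hψ : ψ τ ^ 2 * χ τ = 1) :
    ψ τ * (ψ τ * χ τ) = 1 := by
  rw [← hψ]; ring

end TraceOnly

end Fermat.Agent.S43lib.LGC
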